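import Fermat.Agent.Curve.RR.Main
import Fermat.Agent.Curve.Basics.Degree

/-!
# Function fields of one variable over an algebraically closed field satisfy `RRSetting`
-/

set_option autoImplicit false

noncomputable section

open AlgebraicCurve IntermediateField

namespace FermatAgent.Curve.RR

variable {K F : Type*} [Field K] [Field F] [Algebra K F] [IsAlgClosed K] [IsFunctionField1 K F]

/-- The pole divisor of `x`. -/
def polePart (x : F) : Divisor K F :=
  Finsupp.mapRange (fun n : ℤ => max 0 (-n)) (by simp) (divFn (K := K) x)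

theorem polePart_apply (x : F) (v : Place K F) : polePart x v = max 0 (-v.ord x) := by
  rw [polePart, Finsupp.mapRange_apply, divFn_apply]

theorem polePart_nonneg (x : F) : (0 : Divisor K F) ≤ polePart x :=
  Finsupp.le_def.mpr fun v => by rw [polePart_apply]; simp

theorem degree_polePart_eq {x : F} (hx : Transcendental K x) :
    Divisor.degree (polePart (K := K) x) = Module.finrank K⟮x⟯ F := by
  classical
  rw [← sum_ord_poles hx]
  have hs : (polePart (K := K) x).support ⊆ zerosFinset (K := K) x⁻¹ := fun v hv => by
    rw [Finsupp.mem_support_iff, polePart_apply] at hv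
    rw [mem_zerosFinset, v.ord_inv]
    omega
  rw [degree_eq_sum, Finsupp.sum, Finset.sum_subset hs (fun v _ hv => Finsupp.notMem_support_iff.mp hv)]
  refine Finset.sum_congr rfl fun v hv => ?_
  rw [mem_zerosFinset, v.ord_inv] at hv
  rw [polePart_apply]
  omega

theorem finiteRRSpace (D : Divisor K F) : Module.Finite K (riemannRochSpace D) := inferInstance

/-- Functions without poles outside the poles of `x` fill up `L(m · poles)`. -/
theorem ell_pole_multiple {x : F} (hx : Transcendental K x) :
    ∃ C : Divisor K F, ∀ m : ℕ, 0 ≤ C ∧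
      (Module.finrank K⟮x⟯ F : ℤ) * (m + 1) ≤ ell (C + m • polePart x) := by
  classical
  have := finiteDimensional_adjoin_of_transcendental (K := K) hx
  set n := Module.finrank K⟮x⟯ F with hn
  let u := Module.finBasis K⟮x⟯ F
  refine ⟨∑ i, polePart (u i), fun m => ⟨Finset.sum_nonneg fun i _ => polePart_nonneg _, ?_⟩⟩
  have hxE : x ∈ K⟮x⟯ := mem_adjoin_simple_self K x
  have hli0 : LinearIndependent K (fun j : Fin (m + 1) => (⟨x, hxE⟩ : K⟮x⟯) ^ (j : ℕ)) := by
    refine LinearIndependent.of_comp (K⟮x⟯.val.toLinearMap) ?_
    have h := (transcendental_iff_injective.mp hx)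
    have h2 : LinearIndependent K
        (fun j : Fin (m + 1) => (Polynomial.X : Polynomial K) ^ (j : ℕ)) := by
      have := (Polynomial.basisMonomials K).linearIndependent.comp
        (fun j : Fin (m + 1) => (j : ℕ)) Fin.val_injective
      convert this using 1
      ext j : 1
      simp [Polynomial.X_pow_eq_monomial]
    have h3 := h2.map' (Polynomial.aeval (R := K) x).toLinearMap
      (LinearMap.ker_eq_bot.mpr h)
    have e : (K⟮x⟯.val.toLinearMap ∘ fun j : Fin (m + 1) => (⟨x, hxE⟩ : K⟮x⟯) ^ (j : ℕ)) =
        (Polynomial.aeval (R := K) x).toLinearMap ∘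
          fun j : Fin (m + 1) => (Polynomial.X : Polynomial K) ^ (j : ℕ) := by
      funext j
      simp
    rw [e]
    exact h3
  have hli : LinearIndependent K
      (fun p : Fin (m + 1) × Fin n => (⟨x, hxE⟩ : K⟮x⟯) ^ (p.1 : ℕ) • u p.2) :=
    linearIndependent_smul hli0 u.linearIndependent
  have hx0 : x ≠ 0 := by
    rintro rfl
    exact hx isAlgebraic_zero
  have hmem : ∀ p : Fin (m + 1) × Fin n, (⟨x, hxE⟩ : K⟮x⟯) ^ (p.1 : ℕ) • u p.2 ∈
      riemannRochSpace ((∑ i, polePart (u i)) + m • polePart (K := K) x) := by
    intro p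
    refine mem_riemannRochSpace_iff.mpr fun v => Or.inr ?_
    have hu0 : u p.2 ≠ 0 := u.ne_zero p.2
    have e : ((⟨x, hxE⟩ : K⟮x⟯) ^ (p.1 : ℕ) • u p.2 : F) = x ^ ((p.1 : ℕ) : ℤ) * u p.2 := by
      rw [zpow_natCast]; rfl
    rw [e, v.ord_mul (zpow_ne_zero _ hx0) hu0, v.ord_zpow, Finsupp.add_apply,
      Finsupp.finsetSum_apply, Finsupp.smul_apply, nsmul_eq_mul, polePart_apply]
    have h1 : polePart (K := K) (u p.2) v ≤ ∑ i, polePart (K := K) (u i) v :=
      Finset.single_le_sum (f := fun i => polePart (K := K) (u i) v)
        (fun i _ => by rw [polePart_apply]; omega) (Finset.mem_univ _)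
    rw [polePart_apply] at h1
    have hp : ((p.1 : ℕ) : ℤ) ≤ (m : ℤ) := by have := p.1.isLt; omega
    rcases le_total 0 (v.ord x) with h | h
    · rw [max_eq_left (by omega)]
      have : 0 ≤ ((p.1 : ℕ) : ℤ) * v.ord x := mul_nonneg (by positivity) h
      omega
    · rw [max_eq_right (by omega)]
      have : ((p.1 : ℕ) : ℤ) * (-v.ord x) ≤ (m : ℤ) * (-v.ord x) :=
        mul_le_mul_of_nonneg_right hp (by omega)
      rw [mul_neg, mul_neg] at this
      rw [mul_neg]
      omega
  have hli' : LinearIndependent K (fun p : Fin (m + 1) × Fin n =>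
      (⟨_, hmem p⟩ : riemannRochSpace ((∑ i, polePart (u i)) + m • polePart (K := K) x))) :=
    LinearIndependent.of_comp (Submodule.subtype _) hli
  have := finiteRRSpace ((∑ i, polePart (u i)) + m • polePart (K := K) x)
  have := hli'.fintype_card_le_finrank
  rw [Fintype.card_prod, Fintype.card_fin, Fintype.card_fin] at this
  unfold ell
  have h' : (((m + 1) * n : ℕ) : ℤ) ≤ _ := Int.ofNat_le.mpr this
  push_cast at h'
  rw [mul_comm]
  exact h'

instance instRRSetting : RRSetting K F where
  deg_eq_one := FermatAgent.Curve.deg_eq_one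
  nonempty_place := instNonemptyPlace
  riemann_bound := by
    classical
    obtain ⟨x, hx, -⟩ := IsFunctionField1.exists_finite (K := K) (F := F)
    obtain ⟨C, hC⟩ := ell_pole_multiple hx
    set n := Module.finrank K⟮x⟯ F with hn
    set B := polePart (K := K) x with hB
    refine ⟨Divisor.degree C - n, fun D => ?_⟩
    -- step down to one-place increments, available before `RRSetting`
    have step : ∀ (E : Divisor K F) (P : Place K F),
        ell (E + Finsupp.single P 1) ≤ ell E + 1 := by
      intro E P
      have := finiteRRSpace (E + Finsupp.single P 1)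
      by_cases h : riemannRochSpace (E + Finsupp.single P 1) ≤ riemannRochSpace E
      · have := finiteRRSpace E
        have := Submodule.finrank_mono h
        unfold ell
        omega
      · obtain ⟨g, hg, hn'⟩ := SetLike.not_le_iff_exists.mp h
        obtain ⟨hg0, hgo⟩ := ord_eq_of_notMem hg hn'
        have hsup : riemannRochSpace (E + Finsupp.single P 1) ≤ riemannRochSpace E ⊔ K ∙ g := by
          intro f hf
          have hf' := mem_riemannRochSpace_iff.mp hf P
          rw [Finsupp.add_apply, Finsupp.single_eq_same, neg_add'] at hf'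
          obtain ⟨c, hc⟩ := exists_sub_smul P (FermatAgent.Curve.deg_eq_one P) hg0 hgo hf'
          rw [← sub_add_cancel f (c • g)]
          exact Submodule.add_mem_sup (mem_of_mem_add_single
            (sub_mem hf (Submodule.smul_mem _ c hg)) (hc.imp id fun h => by omega))
            (Submodule.smul_mem _ c (Submodule.mem_span_singleton_self g))
        have := finiteRRSpace E
        have h1 := Submodule.finrank_mono hsup
        have h2 := Submodule.finrank_add_le_finrank_add_finrank (riemannRochSpace E) (K ∙ g)
        rw [finrank_span_singleton hg0] at h2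
        unfold ell
        omega
    have mono : ∀ {D E : Divisor K F}, D ≤ E →
        Divisor.degree D - ell D ≤ Divisor.degree E - ell E := by
      intro D E h
      refine le_induction (p := fun E => Divisor.degree D - ell D ≤ Divisor.degree E - ell E)
        le_rfl ?_ h
      intro E P _ ih
      have := step E P
      rw [map_add, Divisor.degree_single, FermatAgent.Curve.deg_eq_one P, Nat.cast_one, one_mul]
      omega
    -- move the positive part of `D` to the poles of `x`
    let g : Place K F → F := fun P =>
      if 0 ≤ P.ord x then x - algebraMap K F (valueAt P x) else 1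
    have hg0 : ∀ P, g P ≠ 0 := by
      intro P
      simp only [g]
      split
      · intro h
        exact (transcendental_iff_notMem_range.mp hx) ⟨_, (sub_eq_zero.mp h).symm⟩
      · exact one_ne_zero
    have hgpos : ∀ P : Place K F, 0 ≤ P.ord x → 0 < P.ord (g P) := by
      intro P hP
      simp only [g, if_pos hP]
      refine (valueAt_spec P (RR.mem_of_eq_zero_or_ord_nonneg P (Or.inr hP))).resolve_left ?_
      intro h
      exact (transcendental_iff_notMem_range.mp hx) ⟨_, h.symm⟩
    have hgnn : ∀ (P v : Place K F), 0 ≤ v.ord x → 0 ≤ v.ord (g P) := by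
      intro P v hv
      simp only [g]
      split
      · rcases RR.le_ord_add v (f := x) (g := -algebraMap K F (valueAt P x)) (n := 0) (Or.inr hv)
          (by
            rw [← map_neg]
            rcases eq_or_ne (-(valueAt P x)) 0 with h | h
            · exact Or.inl (by rw [h, map_zero])
            · exact Or.inr (RR.ord_algebraMap v h).ge) with h | h
        · rw [sub_eq_add_neg, h, v.ord_zero]
        · rwa [sub_eq_add_neg]
      · rw [v.ord_one]
    set Dp := D ⊔ 0 with hDp
    let f : F := ∏ P ∈ Dp.support, g P ^ (Dp P)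
    have hf0 : f ≠ 0 := Finset.prod_ne_zero_iff.mpr fun P _ => zpow_ne_zero _ (hg0 P)
    have hDpnn : ∀ P, 0 ≤ Dp P := fun P => Finsupp.le_def.mp (le_sup_right : (0 : Divisor K F) ≤ D ⊔ 0) P
    have hord : ∀ v : Place K F, v.ord f = ∑ P ∈ Dp.support, Dp P * v.ord (g P) := by
      intro v
      simp only [f]
      induction Dp.support using Finset.induction with
      | empty => simp
      | insert a s ha ih =>
        rw [Finset.prod_insert ha, Finset.sum_insert ha, v.ord_mul (zpow_ne_zero _ (hg0 a))
          (Finset.prod_ne_zero_iff.mpr fun P _ => zpow_ne_zero _ (hg0 P)), v.ord_zpow, ih]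
    have hneg : ∀ v : Place K F, 0 ≤ v.ord x → ((Dp - divFn f : Divisor K F)) v ≤ 0 := by
      intro v hv
      rw [Finsupp.sub_apply, divFn_apply, hord]
      by_cases hvs : v ∈ Dp.support
      · have h1 : Dp v * v.ord (g v) ≤ ∑ P ∈ Dp.support, Dp P * v.ord (g P) :=
          Finset.single_le_sum (f := fun P => Dp P * v.ord (g P))
            (fun P _ => mul_nonneg (hDpnn P) (hgnn P v hv)) hvs
        have h2 : Dp v * 1 ≤ Dp v * v.ord (g v) :=
          mul_le_mul_of_nonneg_left (hgpos v hv) (hDpnn v)
        omega
      · rw [Finsupp.notMem_support_iff.mp hvs]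
        have : 0 ≤ ∑ P ∈ Dp.support, Dp P * v.ord (g P) :=
          Finset.sum_nonneg fun P _ => mul_nonneg (hDpnn P) (hgnn P v hv)
        omega
    obtain ⟨m, hm⟩ : ∃ m : ℕ, ∀ v, ((Dp - divFn f : Divisor K F)) v ≤ (m • B) v := by
      refine ⟨((Dp - divFn f : Divisor K F)).support.sup fun v => (((Dp - divFn f : Divisor K F)) v).toNat, fun v => ?_⟩
      rw [Finsupp.smul_apply, nsmul_eq_mul, hB, polePart_apply]
      rcases le_or_gt 0 (v.ord x) with h | h
      · rw [max_eq_left (by omega), mul_zero]
        exact hneg v h
      · rw [max_eq_right (by omega)]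
        by_cases hv : v ∈ ((Dp - divFn f : Divisor K F)).support
        · set M := ((Dp - divFn f : Divisor K F)).support.sup fun v => (((Dp - divFn f : Divisor K F)) v).toNat
          have h1 : (((Dp - divFn f : Divisor K F)) v).toNat ≤ M :=
            Finset.le_sup (f := fun v => (((Dp - divFn f : Divisor K F)) v).toNat) hv
          have h2 : (M : ℤ) * 1 ≤ (M : ℤ) * -v.ord x :=
            mul_le_mul_of_nonneg_left (by omega) (by positivity)
          omega
        · rw [Finsupp.notMem_support_iff.mp hv]
          exact mul_nonneg (by positivity) (by omega)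
    have h1 := mono (le_sup_left : D ≤ Dp)
    have h2 := mono (Finsupp.le_def.mpr hm)
    rw [map_sub, degree_divFn, ell_sub_divFn hf0] at h2
    have h3 := mono (le_add_of_nonneg_left (hC m).1 : m • B ≤ C + m • B)
    have h4 := (hC m).2
    rw [map_add, map_nsmul, degree_polePart_eq hx, nsmul_eq_mul, mul_add, mul_one] at *
    rw [mul_comm (m : ℤ)] at *
    rw [← hDp] at h1
    rw [← hn] at h2 h3
    omega

end FermatAgent.Curve.RR
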