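import Fermat.Agent.Curve.RR.Duality
import Mathlib.GroupTheory.CosetCover

/-!
# Riemann–Roch: main statements
-/

set_option autoImplicit false

noncomputable section

open AlgebraicCurve

namespace FermatAgent.Curve.RR

variable {K F : Type*} [Field K] [Field F] [Algebra K F] [RRSetting K F]

theorem ell_zero : ell (0 : Divisor K F) = 1 :=
  ell_zero_eq

theorem riemannRochSpace_eq_bot_of_degree_neg {D : Divisor K F} (h : Divisor.degree D < 0) :
    riemannRochSpace D = ⊥ :=
  riemannRochSpace_eq_bot_of_neg h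

theorem ell_eq_zero_of_degree_neg {D : Divisor K F} (h : Divisor.degree D < 0) : ell D = 0 := by
  unfold ell
  rw [riemannRochSpace_eq_bot_of_degree_neg h, finrank_bot]

theorem ell_le_degree_add_one {D : Divisor K F} (h : 0 ≤ Divisor.degree D) :
    (ell D : ℤ) ≤ Divisor.degree D + 1 := by
  rcases Nat.eq_zero_or_pos (ell D) with h0 | h0
  · omega
  obtain ⟨E, hE, hp⟩ := ell_pos_iff.mp h0
  obtain ⟨f, hf, he⟩ := mem_principal_iff_divFn.mp hp
  have := ell_eq_of_sub_eq_divFn hf he
  have := degree_eq_zero_of_mem_principal hp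
  have := degree_sub_ell_mono hE
  rw [map_zero, ell_zero_eq] at this
  rw [map_sub] at *
  omega

/-- Linearly equivalent divisors have the same `l`. -/
theorem ell_eq_of_sub_mem_principal {D E : Divisor K F}
    (h : D - E ∈ Divisor.principal (K := K) (F := F)) : ell D = ell E := by
  obtain ⟨f, hf, he⟩ := mem_principal_iff_divFn.mp h
  exact ell_eq_of_sub_eq_divFn hf he

theorem euler_char (D : Divisor K F) :
    (ell D : ℤ) - h1 D = Divisor.degree D + 1 - genusFF K F :=
  euler_char_eq D

theorem riemann_inequality (D : Divisor K F) :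
    Divisor.degree D + 1 - genusFF K F ≤ (ell D : ℤ) :=
  degree_sub_ell_le D

/-- Duality. -/
theorem exists_canonical (K F : Type*) [Field K] [Field F] [Algebra K F] [RRSetting K F] :
    ∃ W : Divisor K F, Divisor.degree W = 2 * (genusFF K F : ℤ) - 2 ∧ ell W = genusFF K F ∧
      ∀ D : Divisor K F, h1 D = ell (W - D) :=
  exists_canonical_eq

/-- A chosen canonical divisor (of a Weil differential). -/
def weilCanonical (K F : Type*) [Field K] [Field F] [Algebra K F] [RRSetting K F] : Divisor K F :=
  (exists_canonical K F).choose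

theorem degree_weilCanonical :
    Divisor.degree (weilCanonical K F) = 2 * (genusFF K F : ℤ) - 2 :=
  (exists_canonical K F).choose_spec.1

theorem h1_eq_ell_weilCanonical_sub (D : Divisor K F) : h1 D = ell (weilCanonical K F - D) :=
  (exists_canonical K F).choose_spec.2.2 D

theorem riemann_roch (D : Divisor K F) :
    (ell D : ℤ) - ell (weilCanonical K F - D) = Divisor.degree D + 1 - genusFF K F := by
  rw [← h1_eq_ell_weilCanonical_sub]
  exact euler_char D

theorem h1_eq_zero_of_degree_ge {D : Divisor K F}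
    (h : 2 * (genusFF K F : ℤ) - 1 ≤ Divisor.degree D) : h1 D = 0 := by
  rw [h1_eq_ell_weilCanonical_sub]
  refine ell_eq_zero_of_degree_neg ?_
  rw [map_sub, degree_weilCanonical]
  omega

theorem ell_eq_of_degree_ge {D : Divisor K F}
    (h : 2 * (genusFF K F : ℤ) - 1 ≤ Divisor.degree D) :
    (ell D : ℤ) = Divisor.degree D + 1 - genusFF K F := by
  have := euler_char D
  rw [h1_eq_zero_of_degree_ge h, Nat.cast_zero, sub_zero] at this
  exact this

/-! ### Consequences -/

theorem exists_effective_linearEquiv {D : Divisor K F}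
    (h : (genusFF K F : ℤ) ≤ Divisor.degree D) :
    ∃ E : Divisor K F, 0 ≤ E ∧ E - D ∈ Divisor.principal (K := K) (F := F) := by
  have := degree_sub_ell_le D
  exact ell_pos_iff.mp (by omega)

/-- Every degree zero class is `[E - g·P₀]` with `E` effective of degree `g`. -/
theorem pic0_exists_rep (P₀ : Place K F) (x : Pic0 K F) :
    ∃ (E : Divisor K F) (hE : E - Finsupp.single P₀ (genusFF K F : ℤ) ∈
        Divisor.degZero (K := K) (F := F)),
      0 ≤ E ∧ Divisor.degree E = genusFF K F ∧
        x = Pic0.mk ⟨E - Finsupp.single P₀ (genusFF K F : ℤ), hE⟩ := by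
  obtain ⟨D, rfl⟩ := Pic0.mk_surjective x
  have hD : Divisor.degree (D : Divisor K F) = 0 := Divisor.mem_degZero.mp D.2
  obtain ⟨E, hE, hp⟩ := exists_effective_linearEquiv
    (D := (D : Divisor K F) + Finsupp.single P₀ (genusFF K F : ℤ))
    (by rw [map_add, hD, degree_single]; omega)
  have hdeg : Divisor.degree E = genusFF K F := by
    have := degree_eq_zero_of_mem_principal hp
    rw [map_sub, map_add, hD, degree_single] at this
    omega
  refine ⟨E, by rw [Divisor.mem_degZero, map_sub, hdeg, degree_single, sub_self], hE, hdeg, ?_⟩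
  refine (QuotientAddGroup.eq (s := (Divisor.principal (K := K) (F := F)).addSubgroupOf _)).mpr ?_
  rw [AddSubgroup.mem_addSubgroupOf]
  have e : E - ((D : Divisor K F) + Finsupp.single P₀ (genusFF K F : ℤ)) =
      -(D : Divisor K F) + (E - Finsupp.single P₀ (genusFF K F : ℤ)) := by abel
  rwa [e] at hp

/-- Imposing conditions: `deg E` conditions are independent while `deg (D - E) ≥ 2g - 1`. -/
theorem ell_sub_of_degree_ge {D E : Divisor K F} (hE : 0 ≤ E)
    (h : 2 * (genusFF K F : ℤ) - 1 ≤ Divisor.degree (D - E)) :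
    (ell (D - E) : ℤ) = ell D - Divisor.degree E := by
  have := degree_nonneg hE
  have h1 := ell_eq_of_degree_ge h
  have h2 := map_sub (Divisor.degree (K := K) (F := F)) D E
  have h3 := ell_eq_of_degree_ge (D := D) (by omega)
  omega

/-- Base-point freeness. -/
theorem exists_mem_ord_eq {D : Divisor K F} (h : 2 * (genusFF K F : ℤ) ≤ Divisor.degree D)
    (P : Place K F) : ∃ f ∈ riemannRochSpace D, f ≠ 0 ∧ P.ord f = -D P := by
  have he := ell_sub_of_degree_ge (D := D) (single_one_nonneg P)
    (by rw [map_sub, degree_single]; omega)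
  rw [degree_single] at he
  have hlt : riemannRochSpace (D - Finsupp.single P 1) < riemannRochSpace D := by
    refine lt_of_le_of_ne (riemannRochSpace_mono
      (sub_le_self D (single_one_nonneg P))) fun heq => ?_
    have : ell (D - Finsupp.single P 1) = ell D :=
      congrArg (fun S : Submodule K F => Module.finrank K S) heq
    omega
  obtain ⟨f, hf, hn⟩ := SetLike.exists_of_lt hlt
  rw [← sub_add_cancel D (Finsupp.single P 1)] at hf
  obtain ⟨h0, ho⟩ := ord_eq_of_notMem hf hn
  rw [sub_add_cancel] at hf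
  refine ⟨f, hf, h0, ?_⟩
  rw [ho, Finsupp.sub_apply, Finsupp.single_eq_same]
  omega

/-- A function with a single pole, of any given order `n ≥ 2g` (`n ≥ 1`). -/
theorem exists_single_pole (P : Place K F) {n : ℕ} (hn : 2 * genusFF K F ≤ n) (_hn0 : 0 < n) :
    ∃ f : F, f ≠ 0 ∧ P.ord f = -(n : ℤ) ∧ ∀ Q : Place K F, Q ≠ P → 0 ≤ Q.ord f := by
  obtain ⟨f, hf, h0, ho⟩ := exists_mem_ord_eq (D := Finsupp.single P (n : ℤ))
    (by rw [degree_single]; omega) P
  rw [Finsupp.single_eq_same] at ho
  refine ⟨f, h0, ho, fun Q hQ => ?_⟩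
  simpa [hQ] using (mem_riemannRochSpace_iff.mp hf Q).resolve_left h0

theorem infinite_place [Infinite K] : Infinite (Place K F) := by
  obtain ⟨P⟩ := RRSetting.nonempty_place (K := K) (F := F)
  obtain ⟨f, hf0, hfP, hf⟩ := exists_single_pole P (n := 2 * genusFF K F + 1) (by omega) (by omega)
  have hz : ∀ c : K, ∃ Q : Place K F,
      f - algebraMap K F c = 0 ∨ 0 < Q.ord (f - algebraMap K F c) := by
    intro c
    by_contra h
    push Not at h
    have hg0 : f - algebraMap K F c ≠ 0 := (h P).1
    have hmem : f - algebraMap K F c ≠ 0 ∧ P.ord (f - algebraMap K F c) < 0 := by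
      refine ⟨hg0, ?_⟩
      by_contra hh
      have hc : algebraMap K F c = 0 ∨ 0 ≤ P.ord (algebraMap K F c) := by
        rcases eq_or_ne c 0 with rfl | hc0
        · simp
        · exact Or.inr (ord_algebraMap P hc0).ge
      have := le_ord_add P (Or.inr (not_lt.mp hh)) hc
      rw [sub_add_cancel] at this
      have := this.resolve_left hf0
      omega
    have hle : divFn (f - algebraMap K F c) ≤ -Finsupp.single P (1 : ℤ) :=
      Finsupp.le_def.mpr fun Q => by
        rw [divFn_apply, Finsupp.neg_apply]
        rcases eq_or_ne Q P with rfl | hQ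
        · rw [Finsupp.single_eq_same]; have := hmem.2; omega
        · rw [Finsupp.single_eq_of_ne hQ]; have := (h Q).2; omega
    have := degree_mono hle
    rw [degree_divFn, map_neg, degree_single] at this
    omega
  choose Q hQ using hz
  refine Infinite.of_injective Q fun a b hab => ?_
  by_contra hne
  have h1 : f - algebraMap K F a = 0 ∨ 1 ≤ (Q a).ord (f - algebraMap K F a) :=
    (hQ a).imp id fun h => by omega
  have h2 : f - algebraMap K F b = 0 ∨ 1 ≤ (Q a).ord (f - algebraMap K F b) :=
    (hQ b).imp id fun h => by rw [← hab] at h; omega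
  have h2' : -(f - algebraMap K F b) = 0 ∨ 1 ≤ (Q a).ord (-(f - algebraMap K F b)) := by
    refine h2.imp (fun h => by rw [h, neg_zero]) fun h => ?_
    have e : (Q a).ord (-(f - algebraMap K F b)) = (Q a).ord (f - algebraMap K F b) := by
      simp only [Place.ord, Valuation.map_neg]
    omega
  have := le_ord_add (Q a) h1 h2'
  rw [show f - algebraMap K F a + -(f - algebraMap K F b) = algebraMap K F (b - a) by
    rw [map_sub]; ring] at this
  rcases this with h | h
  · exact hne (sub_eq_zero.mp ((algebraMap K F).injective.eq_iff' (map_zero _) |>.mp h)).symm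
  · rw [ord_algebraMap (Q a) (sub_ne_zero.mpr (Ne.symm hne))] at h
    omega

/-- An effective divisor with `l = 1` is alone in its linear equivalence class. -/
theorem eq_of_ell_eq_one {E E' : Divisor K F} (hE : 0 ≤ E) (hE' : 0 ≤ E') (h1 : ell E = 1)
    (h : E' - E ∈ Divisor.principal (K := K) (F := F)) : E' = E := by
  obtain ⟨f, hf, he⟩ := mem_principal_iff_divFn.mp h
  have hmem : f ∈ riemannRochSpace E := mem_riemannRochSpace_iff.mpr fun v => Or.inr <| by
    have e : E' v - E v = v.ord f := by
      have := DFunLike.congr_fun he v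
      rwa [Finsupp.sub_apply, divFn_apply] at this
    have := Finsupp.le_def.mp hE' v
    simp only [Finsupp.coe_zero, Pi.zero_apply] at this
    omega
  have heq : riemannRochSpace (0 : Divisor K F) = riemannRochSpace E :=
    Submodule.eq_of_le_of_finrank_eq (riemannRochSpace_mono hE)
      (ell_zero_eq.trans h1.symm)
  rw [← heq, mem_riemannRochSpace_zero_iff] at hmem
  obtain ⟨c, rfl⟩ := hmem
  have hc : c ≠ 0 := fun hc => hf (by rw [hc, map_zero])
  rw [← sub_eq_zero, he]
  ext v
  rw [divFn_apply, ord_algebraMap v hc, Finsupp.coe_zero, Pi.zero_apply]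

theorem exists_nonspecial_aux [Infinite K] {S : Set (Place K F)} (hS : S.Finite) (k : ℕ)
    (hk : k ≤ genusFF K F) :
    ∃ s : Finset (Place K F), s.card = k ∧ (∀ P ∈ s, P ∉ S) ∧
      h1 (∑ P ∈ s, Finsupp.single P (1 : ℤ)) = genusFF K F - k := by
  classical
  induction k with
  | zero => exact ⟨∅, rfl, by simp, by simp [h1_zero_eq_genusFF]⟩
  | succ k ih =>
    obtain ⟨s, hs, hsS, hh1⟩ := ih (by omega)
    set E := ∑ P ∈ s, Finsupp.single P (1 : ℤ) with hE
    have hpos : 0 < ell (weilCanonical K F - E) := by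
      rw [← h1_eq_ell_weilCanonical_sub]; omega
    obtain ⟨f, hf, hf0⟩ := Submodule.exists_mem_ne_zero_of_ne_bot
      (p := riemannRochSpace (weilCanonical K F - E)) (fun h => by
        unfold ell at hpos; rw [h, finrank_bot] at hpos; omega)
    have := infinite_place (K := K) (F := F)
    obtain ⟨P, hP⟩ := ((((hS.union s.finite_toSet).union
      (weilCanonical K F - E).support.finite_toSet)).union
        (finite_ord_ne_zero (K := K) f)).infinite_compl.nonempty
    simp only [Set.mem_compl_iff, Set.mem_union, not_or, Finset.mem_coe,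
      Finsupp.mem_support_iff, not_not, Set.mem_ofPred_eq] at hP
    obtain ⟨⟨⟨hPS, hPs⟩, hPW⟩, hPf⟩ := hP
    refine ⟨insert P s, by rw [Finset.card_insert_of_notMem hPs, hs], ?_, ?_⟩
    · intro Q hQ
      rcases Finset.mem_insert.mp hQ with rfl | hQ
      · exact hPS
      · exact hsS Q hQ
    · rw [Finset.sum_insert hPs, ← hE, h1_eq_ell_weilCanonical_sub]
      rw [h1_eq_ell_weilCanonical_sub] at hh1
      have e : weilCanonical K F - E =
          weilCanonical K F - (Finsupp.single P 1 + E) + Finsupp.single P 1 := by abel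
      rw [e] at hf hh1
      have := ell_add_single_of_notMem hf (fun hcon => by
        have h3 := (mem_riemannRochSpace_iff.mp hcon P).resolve_left hf0
        rw [Finsupp.sub_apply, Finsupp.add_apply, Finsupp.single_eq_same] at h3
        rw [Finsupp.sub_apply] at hPW
        omega)
      omega

/-- `g` distinct points outside a finite set with non-special sum. -/
theorem exists_nonspecial [Infinite K] {S : Set (Place K F)} (hS : S.Finite) :
    ∃ s : Finset (Place K F), s.card = genusFF K F ∧ (∀ P ∈ s, P ∉ S) ∧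
      ell (∑ P ∈ s, Finsupp.single P (1 : ℤ)) = 1 ∧
      h1 (∑ P ∈ s, Finsupp.single P (1 : ℤ)) = 0 := by
  obtain ⟨s, hs, hsS, hh⟩ := exists_nonspecial_aux hS (genusFF K F) le_rfl
  rw [Nat.sub_self] at hh
  refine ⟨s, hs, hsS, ?_, hh⟩
  have := euler_char_eq (∑ P ∈ s, Finsupp.single P (1 : ℤ))
  rw [map_sum, Finset.sum_congr rfl (fun P _ => degree_single P 1), Finset.sum_const, hs,
    nsmul_one, hh] at this
  omega

/-- Strong separation of two distinct points. -/
theorem exists_mem_separating {D : Divisor K F} (h : 2 * (genusFF K F : ℤ) + 1 ≤ Divisor.degree D)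
    {P Q : Place K F} (hPQ : P ≠ Q) :
    ∃ f ∈ riemannRochSpace D, f ≠ 0 ∧ P.ord f = -D P ∧ -D Q < Q.ord f := by
  obtain ⟨f, hf, h0, ho⟩ := exists_mem_ord_eq (D := D - Finsupp.single Q 1)
    (by rw [map_sub, degree_single]; omega) P
  refine ⟨f, riemannRochSpace_mono (sub_le_self D (single_one_nonneg Q)) hf, h0, ?_, ?_⟩
  · simpa [hPQ] using ho
  · have := (mem_riemannRochSpace_iff.mp hf Q).resolve_left h0
    rw [Finsupp.sub_apply, Finsupp.single_eq_same] at this
    omega

/-- Strong separation of tangent directions. -/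
theorem exists_mem_ord_eq_succ {D : Divisor K F}
    (h : 2 * (genusFF K F : ℤ) + 1 ≤ Divisor.degree D) (P : Place K F) :
    ∃ f ∈ riemannRochSpace D, f ≠ 0 ∧ P.ord f = -D P + 1 := by
  obtain ⟨f, hf, h0, ho⟩ := exists_mem_ord_eq (D := D - Finsupp.single P 1)
    (by rw [map_sub, degree_single]; omega) P
  refine ⟨f, riemannRochSpace_mono (sub_le_self D (single_one_nonneg P)) hf, h0, ?_⟩
  rw [ho, Finsupp.sub_apply, Finsupp.single_eq_same]
  omega

/-- Simultaneous base-point freeness at finitely many places. -/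
theorem exists_mem_forall_ord_eq [Infinite K] {D : Divisor K F}
    (h : 2 * (genusFF K F : ℤ) ≤ Divisor.degree D) (s : Finset (Place K F)) :
    ∃ f ∈ riemannRochSpace D, f ≠ 0 ∧ ∀ P ∈ s, P.ord f = -D P := by
  classical
  by_cases hs : s.Nonempty
  · let p : {P // P ∈ s} → Subspace K (riemannRochSpace D) := fun P =>
      (riemannRochSpace (D - Finsupp.single P.1 1)).comap (riemannRochSpace D).subtype
    by_contra hno
    push Not at hno
    obtain ⟨P, hP⟩ := Subspace.exists_eq_top_of_iUnion_eq_univ (p := p) (by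
      refine Set.eq_univ_iff_forall.mpr fun f => ?_
      rcases eq_or_ne (f : F) 0 with h0 | h0
      · obtain ⟨P, hP⟩ := hs
        exact Set.mem_iUnion.mpr ⟨⟨P, hP⟩, by
          show (f : F) ∈ riemannRochSpace _
          rw [h0]; exact zero_mem _⟩
      · obtain ⟨P, hP, hne⟩ := hno f f.2 h0
        refine Set.mem_iUnion.mpr ⟨⟨P, hP⟩, mem_riemannRochSpace_iff.mpr fun v => Or.inr ?_⟩
        have hv := (mem_riemannRochSpace_iff.mp f.2 v).resolve_left h0
        show -((D - Finsupp.single P 1 : Divisor K F) v) ≤ v.ord (f : F)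
        rcases eq_or_ne v P with rfl | hvP
        · rw [Finsupp.sub_apply, Finsupp.single_eq_same]; omega
        · rw [Finsupp.sub_apply, Finsupp.single_eq_of_ne hvP]; omega)
    obtain ⟨f, hf, h0, ho⟩ := exists_mem_ord_eq h P.1
    have : (⟨f, hf⟩ : riemannRochSpace D) ∈ p P := by rw [hP]; exact Submodule.mem_top
    have := (mem_riemannRochSpace_iff.mp this P.1).resolve_left h0
    rw [Finsupp.sub_apply, Finsupp.single_eq_same] at this
    change _ ≤ P.1.ord f at this
    omega
  · obtain ⟨P⟩ := RRSetting.nonempty_place (K := K) (F := F)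
    obtain ⟨f, hf, h0, -⟩ := exists_mem_ord_eq h P
    exact ⟨f, hf, h0, fun Q hQ => absurd ⟨Q, hQ⟩ hs⟩

end FermatAgent.Curve.RR
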