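import Fermat.Agent.Curve.RR.Defs

/-!
# Riemann–Roch spaces: elementary facts
-/

set_option autoImplicit false

noncomputable section

open AlgebraicCurve IsLocalRing

namespace FermatAgent.Curve.RR

variable {K F : Type*} [Field K] [Field F] [Algebra K F]

/-! ### Arithmetic of one place -/

section Place

variable (v : Place K F)

theorem mem_iff_ord_nonneg {f : F} (hf : f ≠ 0) : f ∈ v.toValuationSubring ↔ 0 ≤ v.ord f := by
  constructor
  · intro h
    rcases v.adicValuation_le_one_iff.mp (v.adicValuation_le_one_of_mem h) with h' | h'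
    · exact absurd h' hf
    · exact h'
  · intro h
    obtain ⟨π, hπ⟩ := IsDiscreteValuationRing.exists_irreducible v.toValuationSubring
    obtain ⟨u, hu⟩ := v.exists_unit_mul_zpow hf hπ
    rw [hu, ← Int.toNat_of_nonneg h, zpow_natCast]
    exact mul_mem (u : v.toValuationSubring).2 (pow_mem (π : v.toValuationSubring).2 _)

theorem mem_of_eq_zero_or_ord_nonneg {f : F} (h : f = 0 ∨ 0 ≤ v.ord f) :
    f ∈ v.toValuationSubring := by
  rcases eq_or_ne f 0 with rfl | hf
  · exact zero_mem _
  · exact (mem_iff_ord_nonneg v hf).mpr (h.resolve_left hf)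

theorem le_ord_add {f g : F} {n : ℤ} (hf : f = 0 ∨ n ≤ v.ord f) (hg : g = 0 ∨ n ≤ v.ord g) :
    f + g = 0 ∨ n ≤ v.ord (f + g) := by
  have hf' := (v.adicValuation_le_exp_iff (f := f) (n := -n)).mpr (by simpa using hf)
  have hg' := (v.adicValuation_le_exp_iff (f := g) (n := -n)).mpr (by simpa using hg)
  simpa using (v.adicValuation_le_exp_iff (f := f + g) (n := -n)).mp
    ((Valuation.map_add _ f g).trans (max_le hf' hg'))

theorem ord_algebraMap {c : K} (hc : c ≠ 0) : v.ord (algebraMap K F c) = 0 := by
  have h := ((IsUnit.mk0 c hc).map (algebraMap K v.toValuationSubring))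
  have := v.ord_coe_unit h.unit
  simpa using this

theorem exists_ord_eq (n : ℤ) : ∃ f : F, f ≠ 0 ∧ v.ord f = n := by
  obtain ⟨π, hπ⟩ := IsDiscreteValuationRing.exists_irreducible v.toValuationSubring
  have hπ0 : (π : F) ≠ 0 := by
    simpa [ne_eq, ZeroMemClass.coe_eq_zero] using hπ.ne_zero
  exact ⟨(π : F) ^ n, zpow_ne_zero n hπ0, by
    rw [v.ord_zpow, v.ord_coe_irreducible hπ, mul_one]⟩

/-- A fixed element of order `n` at `v`. -/
def elemOfOrd (n : ℤ) : F := (exists_ord_eq v n).choose

theorem elemOfOrd_ne_zero (n : ℤ) : elemOfOrd v n ≠ 0 := (exists_ord_eq v n).choose_spec.1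

@[simp] theorem ord_elemOfOrd (n : ℤ) : v.ord (elemOfOrd v n) = n :=
  (exists_ord_eq v n).choose_spec.2

theorem mem_maximalIdeal_iff {f : F} (hf : f ∈ v.toValuationSubring) :
    (⟨f, hf⟩ : v.toValuationSubring) ∈ maximalIdeal v.toValuationSubring ↔
      f = 0 ∨ 0 < v.ord f := by
  rw [IsLocalRing.mem_maximalIdeal, mem_nonunits_iff, ← v.adicValuation_coe_eq_one_iff]
  rcases eq_or_ne f 0 with rfl | hf0
  · simp
  · have := (mem_iff_ord_nonneg v hf0).mp hf
    simp only [v.adicValuation_eq_exp_neg_ord hf0, ← WithZero.exp_zero, WithZero.exp_inj,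
      or_iff_right hf0]
    omega

theorem bijective_algebraMap_residueField (h : v.deg = 1) :
    Function.Bijective (algebraMap K v.ResidueField) := by
  have h1 : Module.finrank K v.ResidueField = 1 := h
  have : Module.Finite K v.ResidueField := Module.finite_of_finrank_eq_succ h1
  exact ⟨(algebraMap K v.ResidueField).injective,
    (Algebra.linearMap K v.ResidueField).injective_iff_surjective_of_finrank_eq_finrank
      (by rw [Module.finrank_self, h1]) |>.mp (algebraMap K v.ResidueField).injective⟩

/-- A function regular at a place of degree one has a value in `K` there. -/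
theorem exists_value (h : v.deg = 1) {f : F} (hf : f = 0 ∨ 0 ≤ v.ord f) :
    ∃ c : K, f - algebraMap K F c = 0 ∨ 0 < v.ord (f - algebraMap K F c) := by
  have hmem := mem_of_eq_zero_or_ord_nonneg v hf
  obtain ⟨c, hc⟩ := (bijective_algebraMap_residueField v h).2
    (IsLocalRing.residue _ (⟨f, hmem⟩ : v.toValuationSubring))
  refine ⟨c, ?_⟩
  have hmem' : f - algebraMap K F c ∈ v.toValuationSubring :=
    sub_mem hmem (v.algebraMap_mem' c)
  refine (mem_maximalIdeal_iff v hmem').mp ?_
  rw [← IsLocalRing.residue_eq_zero_iff]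
  have e : (⟨f - algebraMap K F c, hmem'⟩ : v.toValuationSubring) =
      ⟨f, hmem⟩ - algebraMap K v.toValuationSubring c := rfl
  rw [e, map_sub, ← hc, IsScalarTower.algebraMap_apply K v.toValuationSubring v.ResidueField]
  exact sub_self _

end Place

/-! ### Divisors of functions and of places -/

section Principal

variable [HasPrincipalDivisors K F]

/-- The divisor of `f` (zero for `f = 0`). -/
def divFn (f : F) : Divisor K F :=
  letI := Classical.propDecidable
  if h : f = 0 then 0 else (HasPrincipalDivisors.exists_divisor (K := K) f h).choose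

theorem divFn_apply (f : F) (v : Place K F) : divFn (K := K) f v = v.ord f := by
  rcases eq_or_ne f 0 with rfl | h
  · simp [divFn]
  · simp only [divFn, dif_neg h]
    exact (HasPrincipalDivisors.exists_divisor (K := K) f h).choose_spec.1 v

theorem degree_divFn (f : F) : Divisor.degree (divFn (K := K) f) = 0 := by
  rcases eq_or_ne f 0 with rfl | h
  · simp [divFn]
  · simp only [divFn, dif_neg h]
    exact (HasPrincipalDivisors.exists_divisor (K := K) f h).choose_spec.2

theorem mem_principal_iff_divFn {D : Divisor K F} :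
    D ∈ Divisor.principal (K := K) (F := F) ↔ ∃ f : F, f ≠ 0 ∧ D = divFn f := by
  constructor
  · rintro ⟨f, hf, h⟩
    exact ⟨f, hf, Finsupp.ext fun v => (h v).trans (divFn_apply f v).symm⟩
  · rintro ⟨f, hf, rfl⟩
    exact ⟨f, hf, fun v => divFn_apply f v⟩

theorem degree_eq_zero_of_mem_principal {D : Divisor K F}
    (h : D ∈ Divisor.principal (K := K) (F := F)) : Divisor.degree D = 0 := by
  obtain ⟨f, -, rfl⟩ := mem_principal_iff_divFn.mp h
  exact degree_divFn f

theorem finite_ord_ne_zero (f : F) : {v : Place K F | v.ord f ≠ 0}.Finite :=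
  (divFn (K := K) f).support.finite_toSet.subset fun v hv => by
    rw [Finset.mem_coe, Finsupp.mem_support_iff, divFn_apply]
    exact hv

/-- Multiplication by `f` identifies `L(D)` with `L(D - div f)`. -/
def mulEquiv {f : F} (hf : f ≠ 0) (D : Divisor K F) :
    riemannRochSpace D ≃ₗ[K] riemannRochSpace (D - divFn f) where
  toFun g := ⟨(g : F) * f, mem_riemannRochSpace_iff.mpr fun v => by
    rcases eq_or_ne (g : F) 0 with hg | hg
    · exact Or.inl (by rw [hg, zero_mul])
    · refine Or.inr ?_
      have := (mem_riemannRochSpace_iff.mp g.2 v).resolve_left hg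
      rw [v.ord_mul hg hf, Finsupp.sub_apply, divFn_apply]
      omega⟩
  invFun g := ⟨(g : F) * f⁻¹, mem_riemannRochSpace_iff.mpr fun v => by
    rcases eq_or_ne (g : F) 0 with hg | hg
    · exact Or.inl (by rw [hg, zero_mul])
    · refine Or.inr ?_
      have := (mem_riemannRochSpace_iff.mp g.2 v).resolve_left hg
      rw [Finsupp.sub_apply, divFn_apply] at this
      rw [v.ord_mul hg (inv_ne_zero hf), v.ord_inv]
      omega⟩
  left_inv g := Subtype.ext (by simp [hf])
  right_inv g := Subtype.ext (by simp [hf])
  map_add' g g' := Subtype.ext (add_mul _ _ _)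
  map_smul' c g := Subtype.ext (by simp)

theorem ell_sub_divFn {f : F} (hf : f ≠ 0) (D : Divisor K F) : ell (D - divFn f) = ell D :=
  (mulEquiv hf D).finrank_eq.symm

theorem ell_eq_of_sub_eq_divFn {f : F} (hf : f ≠ 0) {D E : Divisor K F}
    (h : D - E = divFn f) : ell D = ell E := by
  rw [← ell_sub_divFn hf D, ← h, sub_sub_cancel]

end Principal

/-! ### Degree-one places -/

theorem single_one_nonneg (P : Place K F) : (0 : Divisor K F) ≤ Finsupp.single P 1 :=
  Finsupp.single_nonneg.mpr zero_le_one

theorem le_add_single (D : Divisor K F) (P : Place K F) : D ≤ D + Finsupp.single P 1 :=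
  le_add_of_nonneg_right (single_one_nonneg P)

theorem degree_nonneg {D : Divisor K F} (h : 0 ≤ D) : 0 ≤ Divisor.degree D := by
  simp only [Divisor.degree, Finsupp.liftAddHom_apply, AddMonoidHom.coe_mulRight]
  exact Finset.sum_nonneg fun v _ => mul_nonneg (Finsupp.le_def.mp h v) (by positivity)

theorem degree_mono {D E : Divisor K F} (h : D ≤ E) : Divisor.degree D ≤ Divisor.degree E := by
  have := degree_nonneg (sub_nonneg.mpr h)
  rw [map_sub] at this
  omega

/-- Induction upwards from a divisor, one place at a time. -/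
theorem le_induction {p : Divisor K F → Prop} {D₀ : Divisor K F} (base : p D₀)
    (step : ∀ D P, D₀ ≤ D → p D → p (D + Finsupp.single P 1))
    {D : Divisor K F} (h : D₀ ≤ D) : p D := by
  obtain ⟨E, hE, rfl⟩ : ∃ E : Divisor K F, 0 ≤ E ∧ D = D₀ + E :=
    ⟨D - D₀, sub_nonneg.mpr h, by abel⟩
  clear h
  induction E using Finsupp.induction with
  | zero => simpa using base
  | single_add v n E hv hn ih =>
    have hvn := Finsupp.le_def.mp hE v
    rw [Finsupp.add_apply, Finsupp.notMem_support_iff.mp hv, add_zero, Finsupp.single_eq_same,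
      Finsupp.coe_zero, Pi.zero_apply] at hvn
    have hE' : (0 : Divisor K F) ≤ E := Finsupp.le_def.mpr fun w => by
      rcases eq_or_ne w v with rfl | hw
      · simp [Finsupp.notMem_support_iff.mp hv]
      · simpa [hw] using Finsupp.le_def.mp hE w
    obtain ⟨m, rfl⟩ := Int.eq_ofNat_of_zero_le hvn
    clear hn hvn hE
    induction m with
    | zero => simpa using ih hE'
    | succ m ihm =>
      have e : D₀ + (Finsupp.single v ((m + 1 : ℕ) : ℤ) + E) =
          D₀ + (Finsupp.single v (m : ℤ) + E) + Finsupp.single v 1 := by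
        rw [Nat.cast_succ, Finsupp.single_add]; abel
      rw [e]
      exact step _ _ (le_add_of_nonneg_right
        (add_nonneg (Finsupp.single_nonneg.mpr (Int.natCast_nonneg m)) hE')) ihm

/-! ### The spaces `L(D)` -/

theorem riemannRochSpace_mono {D E : Divisor K F} (h : D ≤ E) :
    riemannRochSpace D ≤ riemannRochSpace E := by
  intro f hf
  rw [mem_riemannRochSpace_iff] at hf ⊢
  exact fun v => (hf v).imp id fun h' => le_trans (neg_le_neg (Finsupp.le_def.mp h v)) h'

theorem mem_of_mem_add_single {D : Divisor K F} {P : Place K F} {f : F}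
    (hf : f ∈ riemannRochSpace (D + Finsupp.single P 1)) (hP : f = 0 ∨ -D P ≤ P.ord f) :
    f ∈ riemannRochSpace D := by
  rw [mem_riemannRochSpace_iff] at hf ⊢
  intro v
  rcases eq_or_ne v P with rfl | hv
  · exact hP
  · simpa [hv] using hf v

theorem ord_eq_of_notMem {D : Divisor K F} {P : Place K F} {f : F}
    (hf : f ∈ riemannRochSpace (D + Finsupp.single P 1)) (hn : f ∉ riemannRochSpace D) :
    f ≠ 0 ∧ P.ord f = -D P - 1 := by
  have h0 : f ≠ 0 := fun h => hn (h ▸ zero_mem _)
  have h1 := (mem_riemannRochSpace_iff.mp hf P).resolve_left h0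
  have h2 : ¬(f = 0 ∨ -D P ≤ P.ord f) := fun h => hn (mem_of_mem_add_single hf h)
  simp only [Finsupp.add_apply, Finsupp.single_eq_same] at h1
  simp only [h0, false_or, not_le] at h2
  exact ⟨h0, by omega⟩

/-- Two functions of the same pole order bound differ by a multiple, up to lower order. -/
theorem exists_sub_smul (P : Place K F) (hP : P.deg = 1) {f g : F} {n : ℤ}
    (hg0 : g ≠ 0) (hg : P.ord g = n) (hf : f = 0 ∨ n ≤ P.ord f) :
    ∃ c : K, f - c • g = 0 ∨ n < P.ord (f - c • g) := by
  have hq : f / g = 0 ∨ 0 ≤ P.ord (f / g) := by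
    rcases eq_or_ne f 0 with rfl | hf0
    · exact Or.inl (zero_div g)
    · refine Or.inr ?_
      rw [div_eq_mul_inv, P.ord_mul hf0 (inv_ne_zero hg0), P.ord_inv, hg]
      have := hf.resolve_left hf0
      omega
  obtain ⟨c, hc⟩ := exists_value P hP hq
  refine ⟨c, ?_⟩
  have e : f - c • g = (f / g - algebraMap K F c) * g := by
    rw [sub_mul, div_mul_cancel₀ f hg0, Algebra.smul_def]
  rcases eq_or_ne (f / g - algebraMap K F c) 0 with h0 | h0
  · exact Or.inl (by rw [e, h0, zero_mul])
  · refine Or.inr ?_
    rw [e, P.ord_mul h0 hg0, hg]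
    have := hc.resolve_left h0
    omega

variable [RRSetting K F]

theorem degree_single (P : Place K F) (n : ℤ) :
    Divisor.degree (Finsupp.single P n : Divisor K F) = n := by
  rw [Divisor.degree_single, RRSetting.deg_eq_one P, Nat.cast_one, mul_one]

theorem exists_smul_add_of_notMem {D : Divisor K F} {P : Place K F} {g : F}
    (hg : g ∈ riemannRochSpace (D + Finsupp.single P 1)) (hn : g ∉ riemannRochSpace D)
    {f : F} (hf : f ∈ riemannRochSpace (D + Finsupp.single P 1)) :
    ∃ c : K, f - c • g ∈ riemannRochSpace D := by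
  obtain ⟨hg0, hgo⟩ := ord_eq_of_notMem hg hn
  have hf' := mem_riemannRochSpace_iff.mp hf P
  rw [Finsupp.add_apply, Finsupp.single_eq_same, neg_add'] at hf'
  obtain ⟨c, hc⟩ := exists_sub_smul P (RRSetting.deg_eq_one P) hg0 hgo hf'
  exact ⟨c, mem_of_mem_add_single (sub_mem hf (Submodule.smul_mem _ c hg))
    (hc.imp id fun h => by omega)⟩

theorem sup_span_eq {D : Divisor K F} {P : Place K F} {g : F}
    (hg : g ∈ riemannRochSpace (D + Finsupp.single P 1)) (hn : g ∉ riemannRochSpace D) :
    riemannRochSpace (D + Finsupp.single P 1) = riemannRochSpace D ⊔ K ∙ g := by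
  refine le_antisymm (fun f hf => ?_) (sup_le (riemannRochSpace_mono (le_add_single D P))
    ((Submodule.span_singleton_le_iff_mem _ _).mpr hg))
  obtain ⟨c, hc⟩ := exists_smul_add_of_notMem hg hn hf
  have : f = (f - c • g) + c • g := (sub_add_cancel _ _).symm
  rw [this]
  exact Submodule.add_mem_sup hc
    (Submodule.smul_mem _ c (Submodule.mem_span_singleton_self g))

theorem riemannRochSpace_eq_bot_of_neg {D : Divisor K F} (h : Divisor.degree D < 0) :
    riemannRochSpace D = ⊥ := by
  rw [Submodule.eq_bot_iff]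
  intro f hf
  by_contra h0
  have hle : 0 ≤ D + divFn f := Finsupp.le_def.mpr fun v => by
    have := (mem_riemannRochSpace_iff.mp hf v).resolve_left h0
    simp only [Finsupp.coe_zero, Pi.zero_apply, Finsupp.add_apply, divFn_apply]
    omega
  have := degree_nonneg hle
  rw [map_add, degree_divFn] at this
  omega

theorem mem_riemannRochSpace_zero_iff {f : F} :
    f ∈ riemannRochSpace (0 : Divisor K F) ↔ ∃ c : K, algebraMap K F c = f := by
  constructor
  · intro hf
    obtain ⟨P⟩ := RRSetting.nonempty_place (K := K) (F := F)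
    obtain ⟨c, hc⟩ := exists_value P (RRSetting.deg_eq_one P)
      (by simpa using mem_riemannRochSpace_iff.mp hf P)
    refine ⟨c, ?_⟩
    have hmem : f - algebraMap K F c ∈ riemannRochSpace (-Finsupp.single P 1 : Divisor K F) := by
      refine mem_of_mem_add_single ?_ ?_ (P := P)
      · rw [neg_add_cancel]
        refine sub_mem hf (mem_riemannRochSpace_iff.mpr fun v => ?_)
        rcases eq_or_ne c 0 with rfl | hc0
        · simp
        · exact Or.inr (by simp [ord_algebraMap v hc0])
      · refine hc.imp id fun h => ?_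
        simp only [Finsupp.neg_apply, Finsupp.single_eq_same, neg_neg]
        omega
    rw [riemannRochSpace_eq_bot_of_neg (by rw [map_neg, degree_single]; omega),
      Submodule.mem_bot, sub_eq_zero] at hmem
    exact hmem.symm
  · rintro ⟨c, rfl⟩
    refine mem_riemannRochSpace_iff.mpr fun v => ?_
    rcases eq_or_ne c 0 with rfl | hc0
    · simp
    · exact Or.inr (by simp [ord_algebraMap v hc0])

theorem riemannRochSpace_zero_eq :
    riemannRochSpace (0 : Divisor K F) = K ∙ (1 : F) := by
  ext f
  rw [mem_riemannRochSpace_zero_iff, Submodule.mem_span_singleton]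
  simp [Algebra.smul_def]

theorem ell_zero_eq : ell (0 : Divisor K F) = 1 := by
  unfold ell
  rw [riemannRochSpace_zero_eq]
  exact finrank_span_singleton one_ne_zero

instance finite_riemannRochSpace (D : Divisor K F) : Module.Finite K (riemannRochSpace D) := by
  have key : ∀ E : Divisor K F, 0 ≤ E → Module.Finite K (riemannRochSpace E) := by
    intro E hE
    refine le_induction (p := fun E => Module.Finite K (riemannRochSpace E)) ?_ ?_ hE
    · rw [riemannRochSpace_zero_eq]; infer_instance
    · intro E P _ ih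
      rcases (riemannRochSpace_mono (le_add_single E P)).eq_or_lt with h | h
      · rw [← h]; exact ih
      · obtain ⟨g, hg, hn⟩ := SetLike.exists_of_lt h
        rw [sup_span_eq hg hn]; infer_instance
  have := key (D ⊔ 0) le_sup_right
  exact Submodule.finiteDimensional_of_le
    (riemannRochSpace_mono (le_sup_left : D ≤ D ⊔ 0))

theorem ell_mono {D E : Divisor K F} (h : D ≤ E) : ell D ≤ ell E :=
  Submodule.finrank_mono (riemannRochSpace_mono h)

theorem ell_add_single_of_notMem {D : Divisor K F} {P : Place K F} {g : F}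
    (hg : g ∈ riemannRochSpace (D + Finsupp.single P 1)) (hn : g ∉ riemannRochSpace D) :
    ell (D + Finsupp.single P 1) = ell D + 1 := by
  have h0 : g ≠ 0 := fun h => hn (h ▸ zero_mem _)
  have hdisj : riemannRochSpace D ⊓ (K ∙ g) = ⊥ :=
    disjoint_iff.mp (Submodule.disjoint_span_singleton_of_notMem hn)
  have := Submodule.finrank_sup_add_finrank_inf_eq (riemannRochSpace D) (K ∙ g)
  rw [hdisj, finrank_bot, add_zero, finrank_span_singleton h0, ← sup_span_eq hg hn] at this
  exact this

theorem ell_add_single_le (D : Divisor K F) (P : Place K F) :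
    ell (D + Finsupp.single P 1) ≤ ell D + 1 := by
  rcases (riemannRochSpace_mono (le_add_single D P)).eq_or_lt with h | h
  · have e : ell (D + Finsupp.single P 1) = ell D := congrArg (fun S : Submodule K F => Module.finrank K S) h.symm
    omega
  · obtain ⟨g, hg, hn⟩ := SetLike.exists_of_lt h
    exact (ell_add_single_of_notMem hg hn).le

theorem degree_sub_ell_mono {D E : Divisor K F} (h : D ≤ E) :
    Divisor.degree D - ell D ≤ Divisor.degree E - ell E := by
  refine le_induction (p := fun E => Divisor.degree D - ell D ≤ Divisor.degree E - ell E)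
    le_rfl ?_ h
  intro E P _ ih
  have := ell_add_single_le E P
  rw [map_add, degree_single]
  omega

theorem ell_pos_iff {D : Divisor K F} :
    0 < ell D ↔ ∃ E : Divisor K F, 0 ≤ E ∧ E - D ∈ Divisor.principal (K := K) (F := F) := by
  constructor
  · intro h
    have hne : riemannRochSpace D ≠ ⊥ := by
      intro h'
      have e : ell D = 0 := by unfold ell; rw [h', finrank_bot]
      omega
    obtain ⟨f, hf, h0⟩ := Submodule.exists_mem_ne_zero_of_ne_bot hne
    refine ⟨D + divFn f, Finsupp.le_def.mpr fun v => ?_,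
      mem_principal_iff_divFn.mpr ⟨f, h0, by abel⟩⟩
    have := (mem_riemannRochSpace_iff.mp hf v).resolve_left h0
    simp only [Finsupp.coe_zero, Pi.zero_apply, Finsupp.add_apply, divFn_apply]
    omega
  · rintro ⟨E, hE, hp⟩
    obtain ⟨f, hf, he⟩ := mem_principal_iff_divFn.mp hp
    rw [← ell_eq_of_sub_eq_divFn hf he]
    have := ell_mono hE
    rw [ell_zero_eq] at this
    omega

end FermatAgent.Curve.RR
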