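import Fermat.Prelude.Def_AlgebraicCurve_Repartitions
import Mathlib.LinearAlgebra.FiniteDimensional.Basic
import Mathlib.LinearAlgebra.Dimension.Finite

/-!
# Riemann–Roch setting for the Prelude's function-field vocabulary

`RRSetting K F` collects the facts about `F/K` which the Riemann–Roch development uses:
principal divisors exist and have degree zero, every place has degree one, there is a place, and
`deg D - l(D)` is bounded above.
-/

set_option autoImplicit false

noncomputable section

open AlgebraicCurve

namespace FermatAgent.Curve.RR

variable {K F : Type*} [Field K] [Field F] [Algebra K F]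

/-- `l(D)`: the dimension of the Riemann–Roch space. -/
def ell (D : Divisor K F) : ℕ := Module.finrank K (riemannRochSpace D)

/-- `h¹(D)`: the dimension of the repartition quotient. -/
def h1 (D : Divisor K F) : ℕ := Module.finrank K (H1 D)

theorem h1_zero_eq_genusFF : h1 (0 : Divisor K F) = genusFF K F := rfl

variable (K F) in
/-- The hypotheses of the Riemann–Roch development. -/
class RRSetting : Prop extends HasPrincipalDivisors K F where
  deg_eq_one : ∀ v : Place K F, v.deg = 1
  nonempty_place : Nonempty (Place K F)
  riemann_bound : ∃ γ : ℤ, ∀ D : Divisor K F, Divisor.degree D - (ell D : ℤ) ≤ γ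

end FermatAgent.Curve.RR
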