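import Fermat.Agent.Curve.RR.Euler
import Mathlib.LinearAlgebra.Dual.Lemmas

/-!
# Weil differentials and duality
-/

set_option autoImplicit false

noncomputable section

open AlgebraicCurve

namespace FermatAgent.Curve.RR

variable {K F : Type*} [Field K] [Field F] [Algebra K F]

/-- Weil differentials with divisor at least `D`. -/
def weilDiff (D : Divisor K F) : Submodule K (Module.Dual K ↥(repartitions K F)) :=
  (h1Den D).dualAnnihilator

/-- Multiplication of a functional by a function. -/
def weilSmul (f : F) (ω : Module.Dual K ↥(repartitions K F)) :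
    Module.Dual K ↥(repartitions K F) :=
  ω.comp (LinearMap.mulLeft K (algebraMap F ↥(repartitions K F) f))

theorem weilSmul_apply (f : F) (ω : Module.Dual K ↥(repartitions K F))
    (α : ↥(repartitions K F)) :
    weilSmul f ω α = ω (algebraMap F ↥(repartitions K F) f * α) := rfl

theorem weilSmul_weilSmul (f g : F) (ω : Module.Dual K ↥(repartitions K F)) :
    weilSmul f (weilSmul g ω) = weilSmul (g * f) ω := by
  ext α
  simp only [weilSmul_apply, map_mul, mul_assoc]

theorem weilSmul_one (ω : Module.Dual K ↥(repartitions K F)) : weilSmul 1 ω = ω := by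
  ext α
  simp [weilSmul_apply]

theorem weilSmul_right_zero (f : F) :
    weilSmul f (0 : Module.Dual K ↥(repartitions K F)) = 0 := rfl

theorem weilSmul_left_zero (ω : Module.Dual K ↥(repartitions K F)) : weilSmul 0 ω = 0 := by
  ext α
  simp [weilSmul_apply]

theorem algebraMap_mul_apply (f : F) (α : ↥(repartitions K F)) (v : Place K F) :
    ((algebraMap F ↥(repartitions K F) f * α : ↥(repartitions K F)) : Place K F → F) v =
      f * (α : Place K F → F) v := rfl

theorem mul_mem_repartitionsOf {D E : Divisor K F} {f : F} (hf : f ∈ riemannRochSpace D)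
    {α : ↥(repartitions K F)} (hα : α ∈ repartitionsOf E) :
    algebraMap F ↥(repartitions K F) f * α ∈ repartitionsOf (D + E) := by
  rw [mem_repartitionsOf_iff] at hα ⊢
  intro v
  rw [algebraMap_mul_apply]
  rcases eq_or_ne f 0 with h0 | h0
  · exact Or.inl (by rw [h0, zero_mul])
  rcases eq_or_ne ((α : Place K F → F) v) 0 with h1 | h1
  · exact Or.inl (by rw [h1, mul_zero])
  refine Or.inr ?_
  have := (mem_riemannRochSpace_iff.mp hf v).resolve_left h0
  have := (hα v).resolve_left h1
  rw [v.ord_mul h0 h1, Finsupp.add_apply]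
  omega

theorem mul_mem_principal (f : F) {α : ↥(repartitions K F)}
    (hα : α ∈ principalRepartitions K F) :
    algebraMap F ↥(repartitions K F) f * α ∈ principalRepartitions K F := by
  obtain ⟨g, hg⟩ := mem_principalRepartitions_iff.mp hα
  refine mem_principalRepartitions_iff.mpr ⟨f * g, funext fun v => ?_⟩
  rw [algebraMap_mul_apply, hg]

theorem weilSmul_mem {D E : Divisor K F} {f : F} (hf : f ∈ riemannRochSpace (E - D))
    {ω : Module.Dual K ↥(repartitions K F)} (hω : ω ∈ weilDiff E) :
    weilSmul f ω ∈ weilDiff D := by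
  rw [weilDiff, Submodule.mem_dualAnnihilator] at hω ⊢
  intro α hα
  obtain ⟨β, hβ, γ, hγ, rfl⟩ := Submodule.mem_sup.mp hα
  rw [weilSmul_apply, mul_add]
  refine hω _ (Submodule.add_mem_sup ?_ (mul_mem_principal f hγ))
  have := mul_mem_repartitionsOf hf hβ
  rwa [sub_add_cancel] at this

theorem repartitionsOf_sup_le (D E : Divisor K F) :
    repartitionsOf (D ⊔ E) ≤ repartitionsOf D ⊔ repartitionsOf E := by
  classical
  intro α hα
  have hα' := mem_repartitionsOf_iff.mp hα
  let a : Place K F → F := fun v => if E v ≤ D v then (α : Place K F → F) v else 0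
  have ha : ∀ v, v.adicValuation (a v) ≤ WithZero.exp (D v) := by
    intro v
    rw [v.adicValuation_le_exp_iff]
    by_cases h : E v ≤ D v
    · simp only [a, if_pos h]
      refine (hα' v).imp id fun h' => ?_
      rw [Finsupp.sup_apply, max_eq_left h] at h'
      exact h'
    · simp [a, h]
  let β : ↥(repartitions K F) := ⟨a, mem_repartitions_of_forall_le_exp D a ha⟩
  have hβ : β ∈ repartitionsOf D := ha
  have hγ : α - β ∈ repartitionsOf E := by
    rw [mem_repartitionsOf_iff]
    intro v
    have e : ((α - β : ↥(repartitions K F)) : Place K F → F) v =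
        (α : Place K F → F) v - a v := rfl
    rw [e]
    by_cases h : E v ≤ D v
    · exact Or.inl (by simp [a, h])
    · simp only [a, if_neg h, sub_zero]
      refine (hα' v).imp id fun h' => ?_
      rw [Finsupp.sup_apply, max_eq_right (le_of_lt (not_le.mp h))] at h'
      exact h'
  rw [← add_sub_cancel β α]
  exact Submodule.add_mem_sup hβ hγ

theorem h1Den_sup_le (D E : Divisor K F) : h1Den (D ⊔ E) ≤ h1Den D ⊔ h1Den E :=
  sup_le ((repartitionsOf_sup_le D E).trans (sup_le_sup le_sup_left le_sup_left))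
    (le_sup_of_le_left le_sup_right)

theorem mem_weilDiff_sup {D E : Divisor K F} {ω : Module.Dual K ↥(repartitions K F)}
    (hD : ω ∈ weilDiff D) (hE : ω ∈ weilDiff E) : ω ∈ weilDiff (D ⊔ E) := by
  refine Submodule.dualAnnihilator_anti (h1Den_sup_le D E) ?_
  rw [Submodule.dualAnnihilator_sup_eq]
  exact ⟨hD, hE⟩

/-- `Ω(D)` is the dual of `H1 D`. -/
def weilDiffEquiv (D : Divisor K F) :
    Module.Dual K (H1 D) ≃ₗ[K] weilDiff D :=
  Submodule.dualQuotEquivDualAnnihilator (h1Den D)

theorem weilSmul_inv_self {f : F} (hf : f ≠ 0) (ω : Module.Dual K ↥(repartitions K F)) :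
    weilSmul f⁻¹ (weilSmul f ω) = ω := by
  rw [weilSmul_weilSmul, mul_inv_cancel₀ hf, weilSmul_one]

theorem weilSmul_ne_zero {f : F} (hf : f ≠ 0) {ω : Module.Dual K ↥(repartitions K F)}
    (hω : ω ≠ 0) : weilSmul f ω ≠ 0 := fun h => hω <| by
  rw [← weilSmul_inv_self hf ω, h, weilSmul_right_zero]

/-- `f ↦ f • ω` as a linear map on `L(E - D)`. -/
def weilMul {D E : Divisor K F} {ω : Module.Dual K ↥(repartitions K F)} (hω : ω ∈ weilDiff E) :
    riemannRochSpace (E - D) →ₗ[K] weilDiff D where
  toFun f := ⟨weilSmul (f : F) ω, weilSmul_mem f.2 hω⟩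
  map_add' f g := Subtype.ext <| LinearMap.ext fun α => by
    simp [weilSmul_apply, add_mul]
  map_smul' c f := Subtype.ext <| LinearMap.ext fun α => by
    have e : algebraMap F ↥(repartitions K F) (c • (f : F)) * α =
        c • (algebraMap F ↥(repartitions K F) (f : F) * α) :=
      Subtype.ext <| funext fun v => by
        show c • (f : F) * (α : Place K F → F) v = c • ((f : F) * (α : Place K F → F) v)
        exact smul_mul_assoc c _ _
    simp [weilSmul_apply, e]

theorem weilMul_injective {D E : Divisor K F} {ω : Module.Dual K ↥(repartitions K F)}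
    (hω : ω ∈ weilDiff E) (h0 : ω ≠ 0) : Function.Injective (weilMul (D := D) hω) := by
  refine (injective_iff_map_eq_zero _).mpr fun f hf => ?_
  by_contra hne
  exact weilSmul_ne_zero (fun h => hne (Subtype.ext h)) h0 (congrArg Subtype.val hf)

variable [RRSetting K F]

instance finite_weilDiff (D : Divisor K F) : Module.Finite K (weilDiff D) :=
  Module.Finite.equiv (weilDiffEquiv D)

omit [RRSetting K F] in
theorem finrank_weilDiff (D : Divisor K F) : Module.finrank K (weilDiff D) = h1 D := by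
  rw [← (weilDiffEquiv D).finrank_eq]
  exact Subspace.dual_finrank_eq

/-- Weil differentials form a one-dimensional `F`-space. -/
theorem exists_weilSmul_eq {D₁ D₂ : Divisor K F} {ω₁ ω₂ : Module.Dual K ↥(repartitions K F)}
    (h₁ : ω₁ ∈ weilDiff D₁) (h₂ : ω₂ ∈ weilDiff D₂) (n₁ : ω₁ ≠ 0) :
    ∃ f : F, weilSmul f ω₁ = ω₂ := by
  rcases eq_or_ne ω₂ 0 with n₂ | n₂
  · exact ⟨0, by rw [weilSmul_left_zero, n₂]⟩
  obtain ⟨P⟩ := RRSetting.nonempty_place (K := K) (F := F)
  obtain ⟨n, hn⟩ : ∃ n : ℕ, (genusFF K F : ℤ) * 3 + 1 - Divisor.degree D₁ - Divisor.degree D₂ < n :=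
    ⟨((genusFF K F : ℤ) * 3 + 1 - Divisor.degree D₁ - Divisor.degree D₂).toNat + 1, by omega⟩
  set B : Divisor K F := Finsupp.single P ((n : ℤ) + 1) with hB
  let φ₁ := weilMul (D := -B) h₁
  let φ₂ := weilMul (D := -B) h₂
  have hnd : ¬ Disjoint (LinearMap.range φ₁) (LinearMap.range φ₂) := by
    intro hd
    have hs := Submodule.finrank_sup_add_finrank_inf_eq (K := K) (V := ↥(weilDiff (K := K) (-B)))
      (LinearMap.range φ₁) (LinearMap.range φ₂)
    rw [disjoint_iff.mp hd, finrank_bot,
      LinearMap.finrank_range_of_inj (weilMul_injective h₁ n₁),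
      LinearMap.finrank_range_of_inj (weilMul_injective h₂ n₂)] at hs
    have hle := Submodule.finrank_le (LinearMap.range φ₁ ⊔ LinearMap.range φ₂)
    have e := euler_char_eq (-B)
    have hBneg : ell (-B) = 0 := by
      unfold ell
      rw [riemannRochSpace_eq_bot_of_neg (by rw [map_neg, hB, degree_single]; omega), finrank_bot]
    have e₁ := degree_sub_ell_le (D₁ - -B)
    have e₂ := degree_sub_ell_le (D₂ - -B)
    rw [finrank_weilDiff] at hle
    have hdB : Divisor.degree B = (n : ℤ) + 1 := degree_single P _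
    rw [map_neg] at e
    rw [map_sub, map_neg] at e₁ e₂
    unfold ell at hBneg e e₁ e₂
    omega
  rw [disjoint_iff, ← ne_eq, Submodule.ne_bot_iff] at hnd
  obtain ⟨x, hx, hx0⟩ := hnd
  obtain ⟨⟨⟨a, ha⟩, rfl⟩, ⟨⟨b, hb⟩, hab⟩⟩ := hx
  have hb0 : b ≠ 0 := by
    rintro rfl
    apply hx0
    rw [← hab]
    exact map_zero φ₂
  have hab' : weilSmul b ω₂ = weilSmul a ω₁ := congrArg Subtype.val hab
  exact ⟨a * b⁻¹, by rw [← weilSmul_weilSmul, ← hab', weilSmul_inv_self hb0]⟩

theorem exists_degree_bound_weilDiff : ∃ c : ℤ, ∀ (D : Divisor K F)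
    (ω : Module.Dual K ↥(repartitions K F)), ω ∈ weilDiff D → ω ≠ 0 → Divisor.degree D < c := by
  obtain ⟨c, hc⟩ := exists_degree_bound (K := K) (F := F)
  refine ⟨c, fun D ω hω h0 => ?_⟩
  by_contra hle
  have hfr := finrank_weilDiff D
  rw [hc D (not_lt.mp hle), Submodule.finrank_eq_zero] at hfr
  rw [hfr, Submodule.mem_bot] at hω
  exact h0 hω

theorem exists_canonical_aux : ∃ W : Divisor K F,
    ∀ D : Divisor K F, h1 D = ell (W - D) := by
  obtain ⟨P⟩ := RRSetting.nonempty_place (K := K) (F := F)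
  obtain ⟨n, hn⟩ : ∃ n : ℕ, n = 2 := ⟨2, rfl⟩
  set D₁ : Divisor K F := Finsupp.single P (-(n : ℤ)) with hD₁
  have hne : weilDiff D₁ ≠ ⊥ := by
    intro h
    have hfr := finrank_weilDiff D₁
    rw [h, finrank_bot] at hfr
    have e := euler_char_eq D₁
    have hz : ell D₁ = 0 := by
      unfold ell
      rw [riemannRochSpace_eq_bot_of_neg (by rw [hD₁, degree_single]; omega), finrank_bot]
    rw [hD₁, degree_single] at e
    rw [hD₁] at hz hfr
    omega
  obtain ⟨ω, hω, hω0⟩ := Submodule.exists_mem_ne_zero_of_ne_bot hne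
  obtain ⟨c, hc⟩ := exists_degree_bound_weilDiff (K := K) (F := F)
  obtain ⟨m, ⟨W, hW, rfl⟩, hmax⟩ := Int.exists_greatest_of_bdd
    (P := fun m => ∃ E : Divisor K F, ω ∈ weilDiff E ∧ Divisor.degree E = m)
    ⟨c, fun z ⟨E, hE, he⟩ => he ▸ (hc E ω hE hω0).le⟩ ⟨_, D₁, hω, rfl⟩
  have hgreat : ∀ E, ω ∈ weilDiff E → E ≤ W := by
    intro E hE
    have h1 := hmax _ ⟨W ⊔ E, mem_weilDiff_sup hW hE, rfl⟩
    rw [← sup_eq_left]
    by_contra hne'
    have hlt : W ≤ W ⊔ E := le_sup_left
    obtain ⟨v, hv⟩ : ∃ v, W v < (W ⊔ E) v := by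
      by_contra hall
      push Not at hall
      exact hne' (le_antisymm (Finsupp.le_def.mpr hall) hlt)
    have hstep : W + Finsupp.single v 1 ≤ W ⊔ E := Finsupp.le_def.mpr fun w => by
      rcases eq_or_ne w v with rfl | hw
      · rw [Finsupp.add_apply, Finsupp.single_eq_same]; omega
      · simp [hw]
    have h2 := degree_mono hstep
    rw [map_add, degree_single] at h2
    omega
  refine ⟨W, fun D => ?_⟩
  rw [← finrank_weilDiff]
  refine (LinearEquiv.finrank_eq (LinearEquiv.ofBijective (weilMul hW)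
    ⟨weilMul_injective hW hω0, fun η => ?_⟩)).symm
  obtain ⟨f, hf⟩ := exists_weilSmul_eq hW η.2 hω0
  rcases eq_or_ne f 0 with rfl | hf0
  · exact ⟨0, Subtype.ext (by rw [map_zero, ← hf, weilSmul_left_zero]; rfl)⟩
  · have hω' : ω ∈ weilDiff (D - divFn f) := by
      have hmem : f⁻¹ ∈ riemannRochSpace (D - (D - divFn f)) := by
        rw [mem_riemannRochSpace_iff]
        intro v
        refine Or.inr ?_
        simp only [v.ord_inv, Finsupp.sub_apply, divFn_apply]
        omega
      have := weilSmul_mem hmem η.2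
      rwa [← hf, weilSmul_inv_self hf0] at this
    have hle := hgreat _ hω'
    refine ⟨⟨f, mem_riemannRochSpace_iff.mpr fun v => Or.inr ?_⟩, Subtype.ext hf⟩
    have := Finsupp.le_def.mp hle v
    rw [Finsupp.sub_apply, divFn_apply] at this
    rw [Finsupp.sub_apply]
    omega

theorem exists_canonical_eq : ∃ W : Divisor K F,
    Divisor.degree W = 2 * (genusFF K F : ℤ) - 2 ∧ ell W = genusFF K F ∧
      ∀ D : Divisor K F, h1 D = ell (W - D) := by
  obtain ⟨W, hW⟩ := exists_canonical_aux (K := K) (F := F)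
  have h0 := hW 0
  rw [sub_zero, h1_zero_eq_genusFF] at h0
  refine ⟨W, ?_, h0.symm, hW⟩
  have e := euler_char_eq W
  rw [hW W, sub_self, ell_zero_eq, ← h0] at e
  omega

end FermatAgent.Curve.RR
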