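import Fermat.Agent.Curve.RR.Basic
import Mathlib.LinearAlgebra.Isomorphisms
import Mathlib.LinearAlgebra.FiniteDimensional.Lemmas
import Mathlib.RingTheory.Finiteness.Basic

/-!
# The exact Euler characteristic `l(D) - h¹(D) = deg D + 1 - g`
-/

set_option autoImplicit false

noncomputable section

open AlgebraicCurve

namespace FermatAgent.Curve.RR

variable {K F : Type*} [Field K] [Field F] [Algebra K F]

theorem repartition_finite_poles [HasPrincipalDivisors K F] {α : Place K F → F}
    (hα : α ∈ repartitions K F) : {v : Place K F | ¬ v.adicValuation (α v) ≤ 1}.Finite := by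
  unfold repartitions at hα
  induction hα using Algebra.adjoin_induction with
  | mem x hx => exact hx
  | algebraMap f =>
    refine (finite_ord_ne_zero (K := K) f).subset fun v hv => ?_
    have : v.ord f < 0 := v.not_adicValuation_le_one_iff.mp hv
    simp only [Set.mem_ofPred_eq]
    omega
  | add x y _ _ hx hy =>
    refine (hx.union hy).subset fun v hv => ?_
    simp only [Set.mem_union, Set.mem_ofPred_eq] at hv ⊢
    by_contra h
    push Not at h
    exact hv ((Valuation.map_add _ _ _).trans (max_le h.1 h.2))
  | mul x y _ _ hx hy =>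
    refine (hx.union hy).subset fun v hv => ?_
    simp only [Set.mem_union, Set.mem_ofPred_eq] at hv ⊢
    by_contra h
    push Not at h
    refine hv ?_
    rw [Pi.mul_apply, map_mul]
    exact mul_le_one' h.1 h.2

theorem ord_neg_finite_of_mem [HasPrincipalDivisors K F] {α : Place K F → F}
    (hα : α ∈ repartitions K F) : {v : Place K F | v.ord (α v) < 0}.Finite :=
  (repartition_finite_poles hα).subset fun v hv => v.not_adicValuation_le_one_iff.mpr hv

/-- The repartition supported at one place. -/
def repSingle (P : Place K F) (f : F) : ↥(repartitions K F) :=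
  letI := Classical.decEq (Place K F)
  ⟨fun v => if v = P then f else 0, mem_repartitions_of_finite_ord
    ((Set.finite_singleton P).subset fun v hv => by
      by_contra h
      simp [Set.mem_singleton_iff.not.mp h] at hv)⟩

theorem repSingle_apply_self (P : Place K F) (f : F) :
    (repSingle P f : Place K F → F) P = f := by simp [repSingle]

theorem repSingle_apply_of_ne {P v : Place K F} (h : v ≠ P) (f : F) :
    (repSingle P f : Place K F → F) v = 0 := by simp [repSingle, h]

/-- The denominator of `H1 D`. -/
def h1Den (D : Divisor K F) : Submodule K ↥(repartitions K F) :=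
  repartitionsOf D ⊔ principalRepartitions K F

theorem h1Den_mono {D E : Divisor K F} (h : D ≤ E) : h1Den D ≤ h1Den E :=
  sup_le_sup_right (repartitionsOf_mono h) _

theorem h1_eq_finrank_quot (D : Divisor K F) :
    h1 D = Module.finrank K (↥(repartitions K F) ⧸ h1Den D) := rfl

theorem exists_le_mem_repartitionsOf [HasPrincipalDivisors K F] (α : ↥(repartitions K F))
    (D : Divisor K F) : ∃ E : Divisor K F, D ≤ E ∧ α ∈ repartitionsOf E := by
  classical
  let s := (ord_neg_finite_of_mem α.2).toFinset
  let E : Divisor K F := Finsupp.onFinset s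
    (fun v => max 0 (-v.ord ((α : Place K F → F) v))) (fun v hv => by
      simp only [s, Set.Finite.mem_toFinset, Set.mem_ofPred_eq]
      omega)
  refine ⟨D ⊔ E, le_sup_left, mem_repartitionsOf_iff.mpr fun v => Or.inr ?_⟩
  have h1 : E v ≤ (D ⊔ E) v := Finsupp.le_def.mp le_sup_right v
  have h2 : E v = max 0 (-v.ord ((α : Place K F → F) v)) := rfl
  omega

variable [RRSetting K F]

omit [RRSetting K F] in
theorem mem_repartitionsOf_of_add_single {D : Divisor K F} {P : Place K F}
    {α : ↥(repartitions K F)} (hα : α ∈ repartitionsOf (D + Finsupp.single P 1))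
    (hP : (α : Place K F → F) P = 0 ∨ -D P ≤ P.ord ((α : Place K F → F) P)) :
    α ∈ repartitionsOf D := by
  rw [mem_repartitionsOf_iff] at hα ⊢
  intro v
  rcases eq_or_ne v P with rfl | hv
  · exact hP
  · simpa [hv] using hα v

/-- A repartition generating `A(D + P)` over `A(D)`. -/
def jumpElem (D : Divisor K F) (P : Place K F) : ↥(repartitions K F) :=
  repSingle P (elemOfOrd P (-D P - 1))

omit [RRSetting K F] in
theorem jumpElem_mem (D : Divisor K F) (P : Place K F) :
    jumpElem D P ∈ repartitionsOf (D + Finsupp.single P 1) := by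
  rw [mem_repartitionsOf_iff]
  intro v
  rcases eq_or_ne v P with rfl | hv
  · refine Or.inr ?_
    rw [jumpElem, repSingle_apply_self, ord_elemOfOrd, Finsupp.add_apply, Finsupp.single_eq_same]
    omega
  · exact Or.inl (repSingle_apply_of_ne hv _)

theorem repartitionsOf_add_single_eq (D : Divisor K F) (P : Place K F) :
    repartitionsOf (D + Finsupp.single P 1) = repartitionsOf D ⊔ K ∙ jumpElem D P := by
  refine le_antisymm (fun α hα => ?_) (sup_le (repartitionsOf_mono (le_add_single D P))
    ((Submodule.span_singleton_le_iff_mem _ _).mpr (jumpElem_mem D P)))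
  have h := mem_repartitionsOf_iff.mp hα P
  rw [Finsupp.add_apply, Finsupp.single_eq_same, neg_add'] at h
  obtain ⟨c, hc⟩ := exists_sub_smul P (RRSetting.deg_eq_one P)
    (elemOfOrd_ne_zero P (-D P - 1)) (ord_elemOfOrd P _) h
  have hmem : α - c • jumpElem D P ∈ repartitionsOf D := by
    refine mem_repartitionsOf_of_add_single
      (sub_mem hα (Submodule.smul_mem _ c (jumpElem_mem D P))) ?_
    have e : ((α - c • jumpElem D P : ↥(repartitions K F)) : Place K F → F) P =
        (α : Place K F → F) P - c • elemOfOrd P (-D P - 1) := by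
      show (α : Place K F → F) P - c • (repSingle P _ : Place K F → F) P = _
      rw [repSingle_apply_self]
    rw [e]
    exact hc.imp id fun h => by omega
  rw [← sub_add_cancel α (c • jumpElem D P)]
  exact Submodule.add_mem_sup hmem
    (Submodule.smul_mem _ c (Submodule.mem_span_singleton_self _))

theorem h1Den_add_single_eq (D : Divisor K F) (P : Place K F) :
    h1Den (D + Finsupp.single P 1) = h1Den D ⊔ K ∙ jumpElem D P := by
  simp only [h1Den, repartitionsOf_add_single_eq, sup_right_comm]

/-- The jump element lies in `A(D) + F` exactly when `L` jumps. -/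
theorem jumpElem_mem_h1Den_iff (D : Divisor K F) (P : Place K F) :
    jumpElem D P ∈ h1Den D ↔
      ∃ f ∈ riemannRochSpace (D + Finsupp.single P 1), f ∉ riemannRochSpace D := by
  constructor
  · intro h
    obtain ⟨β, hβ, γ, hγ, he⟩ := Submodule.mem_sup.mp h
    obtain ⟨f, hf⟩ := mem_principalRepartitions_iff.mp hγ
    have hev : ∀ v, (jumpElem D P : Place K F → F) v = (β : Place K F → F) v + f := fun v => by
      rw [← he]
      show (β : Place K F → F) v + (γ : Place K F → F) v = _
      rw [hf]
    refine ⟨f, mem_riemannRochSpace_iff.mpr fun v => ?_, fun hcon => ?_⟩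
    · have hsub : f = (jumpElem D P : Place K F → F) v - (β : Place K F → F) v := by
        rw [hev v, add_sub_cancel_left]
      rw [hsub, sub_eq_add_neg]
      refine le_ord_add v (mem_repartitionsOf_iff.mp (jumpElem_mem D P) v) ?_
      exact mem_repartitionsOf_iff.mp (neg_mem (repartitionsOf_mono (le_add_single D P) hβ)) v
    · have := le_ord_add P (mem_repartitionsOf_iff.mp hβ P) (mem_riemannRochSpace_iff.mp hcon P)
      rw [← hev P, jumpElem, repSingle_apply_self, ord_elemOfOrd] at this
      rcases this with h0 | h0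
      · exact elemOfOrd_ne_zero P _ h0
      · omega
  · rintro ⟨f, hf, hn⟩
    obtain ⟨hf0, hfo⟩ := ord_eq_of_notMem hf hn
    have hmemF : algebraMap F ↥(repartitions K F) f ∈ principalRepartitions K F :=
      mem_principalRepartitions_iff.mpr ⟨f, rfl⟩
    have hmem : algebraMap F ↥(repartitions K F) f ∈ repartitionsOf (D + Finsupp.single P 1) :=
      mem_repartitionsOf_iff.mpr fun v => mem_riemannRochSpace_iff.mp hf v
    rw [repartitionsOf_add_single_eq] at hmem
    obtain ⟨β, hβ, γ, hγ, he⟩ := Submodule.mem_sup.mp hmem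
    obtain ⟨c, rfl⟩ := Submodule.mem_span_singleton.mp hγ
    have hc : c ≠ 0 := by
      rintro rfl
      rw [zero_smul, add_zero] at he
      subst he
      rcases mem_repartitionsOf_iff.mp hβ P with h | h
      · exact hf0 h
      · have : (algebraMap F ↥(repartitions K F) f : Place K F → F) P = f := rfl
        rw [this] at h
        omega
    have e : jumpElem D P = c⁻¹ • (algebraMap F ↥(repartitions K F) f - β) := by
      rw [← he, add_sub_cancel_left, inv_smul_smul₀ hc]
    rw [e]
    exact Submodule.smul_mem _ _ (sub_mem (Submodule.mem_sup_right hmemF)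
      (Submodule.mem_sup_left hβ))

theorem h1Den_add_single_of_jump {D : Divisor K F} {P : Place K F}
    (h : ell (D + Finsupp.single P 1) ≠ ell D) :
    h1Den (D + Finsupp.single P 1) = h1Den D := by
  rw [h1Den_add_single_eq, sup_eq_left, Submodule.span_singleton_le_iff_mem,
    jumpElem_mem_h1Den_iff]
  by_contra hno
  push Not at hno
  exact h (le_antisymm (Submodule.finrank_mono hno) (ell_mono (le_add_single D P)))

/-- For a divisor of maximal `deg - l` the quotient `H1` vanishes. -/
theorem h1Den_eq_top_of_isMax {D : Divisor K F}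
    (h : ∀ E : Divisor K F, D ≤ E → Divisor.degree E - ell E ≤ Divisor.degree D - ell D) :
    h1Den D = ⊤ := by
  rw [eq_top_iff]
  intro α _
  obtain ⟨E, hE, hα⟩ := exists_le_mem_repartitionsOf α D
  have key : h1Den E = h1Den D := by
    refine le_induction (p := fun E => h1Den E = h1Den D) rfl ?_ hE
    intro E P hDE ih
    rw [← ih]
    refine h1Den_add_single_of_jump ?_
    have h1 := h (E + Finsupp.single P 1) (hDE.trans (le_add_single E P))
    have h2 := degree_sub_ell_mono hDE
    rw [map_add, degree_single] at h1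
    omega
  rw [← key]
  exact Submodule.mem_sup_left hα

theorem exists_isMax : ∃ D₀ : Divisor K F, ∀ E : Divisor K F,
    Divisor.degree E - ell E ≤ Divisor.degree D₀ - ell D₀ := by
  obtain ⟨γ, hγ⟩ := RRSetting.riemann_bound (K := K) (F := F)
  obtain ⟨m, hm, hmax⟩ := Int.exists_greatest_of_bdd
    (P := fun m => ∃ D : Divisor K F, Divisor.degree D - ell D = m)
    ⟨γ, fun z ⟨D, hD⟩ => hD ▸ hγ D⟩ ⟨_, 0, rfl⟩
  obtain ⟨D₀, rfl⟩ := hm
  exact ⟨D₀, fun E => hmax _ ⟨E, rfl⟩⟩

/-- The comparison map `H1 D → H1 (D + P)`. -/
def h1Proj {D E : Divisor K F} (h : D ≤ E) :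
    (↥(repartitions K F) ⧸ h1Den D) →ₗ[K] (↥(repartitions K F) ⧸ h1Den E) :=
  Submodule.mapQ (h1Den D) (h1Den E) LinearMap.id (h1Den_mono h)

omit [RRSetting K F] in
theorem h1Proj_surjective {D E : Divisor K F} (h : D ≤ E) :
    Function.Surjective (h1Proj h) := by
  intro y
  obtain ⟨x, rfl⟩ := Submodule.mkQ_surjective _ y
  exact ⟨(h1Den D).mkQ x, rfl⟩

theorem ker_h1Proj_single (D : Divisor K F) (P : Place K F) :
    LinearMap.ker (h1Proj (le_add_single D P)) = K ∙ (h1Den D).mkQ (jumpElem D P) := by
  rw [h1Proj, Submodule.mapQ, Submodule.ker_liftQ, LinearMap.ker_comp, Submodule.ker_mkQ,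
    Submodule.comap_id, h1Den_add_single_eq,
    Submodule.map_sup, Submodule.map_span, Set.image_singleton, Submodule.mkQ_map_self,
    bot_sup_eq]

theorem finite_quot_down {D : Divisor K F} {P : Place K F}
    (h : Module.Finite K (↥(repartitions K F) ⧸ h1Den (D + Finsupp.single P 1))) :
    Module.Finite K (↥(repartitions K F) ⧸ h1Den D) := by
  have : Module.Finite K (LinearMap.ker (h1Proj (le_add_single D P))) := by
    rw [ker_h1Proj_single]; infer_instance
  have := Module.Finite.equiv
    ((h1Proj (le_add_single D P)).quotKerEquivOfSurjective (h1Proj_surjective _)).symm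
  exact Module.Finite.of_submodule_quotient (LinearMap.ker (h1Proj (le_add_single D P)))

theorem finite_quot (D : Divisor K F) :
    Module.Finite K (↥(repartitions K F) ⧸ h1Den D) := by
  obtain ⟨D₀, h0⟩ := exists_isMax (K := K) (F := F)
  have htop : ∀ E : Divisor K F, D₀ ≤ E → h1Den E = ⊤ := fun E hE =>
    eq_top_iff.mpr ((h1Den_eq_top_of_isMax fun E _ => h0 E).ge.trans (h1Den_mono hE))
  refine le_induction (D₀ := D) (D := D ⊔ D₀)
    (p := fun E => Module.Finite K (↥(repartitions K F) ⧸ h1Den E) →
      Module.Finite K (↥(repartitions K F) ⧸ h1Den D)) id ?_ le_sup_left ?_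
  · exact fun E P _ ih h => ih (finite_quot_down h)
  · rw [htop (D ⊔ D₀) le_sup_right]
    infer_instance

instance finite_H1 (D : Divisor K F) : Module.Finite K (H1 D) := finite_quot D

theorem euler_step (D : Divisor K F) (P : Place K F) :
    (ell (D + Finsupp.single P 1) : ℤ) - h1 (D + Finsupp.single P 1) =
      (ell D : ℤ) - h1 D + 1 := by
  rcases eq_or_ne (ell (D + Finsupp.single P 1)) (ell D) with h | h
  · have := finite_quot D
    have hr := LinearMap.finrank_range_add_finrank_ker (h1Proj (le_add_single D P))
    rw [LinearMap.range_eq_top.mpr (h1Proj_surjective _), finrank_top, ker_h1Proj_single,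
      finrank_span_singleton, ← h1_eq_finrank_quot, ← h1_eq_finrank_quot] at hr
    · omega
    · intro hzero
      obtain ⟨g, hg, hn⟩ := (jumpElem_mem_h1Den_iff D P).mp
        ((Submodule.Quotient.mk_eq_zero _).mp hzero)
      have := ell_add_single_of_notMem hg hn
      omega
  · have e : h1 (D + Finsupp.single P 1) = h1 D := by
      rw [h1_eq_finrank_quot, h1_eq_finrank_quot, h1Den_add_single_of_jump h]
    have := ell_add_single_le D P
    have := ell_mono (le_add_single D P)
    omega

theorem euler_invariant {D E : Divisor K F} (h : D ≤ E) :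
    (ell E : ℤ) - h1 E - Divisor.degree E = (ell D : ℤ) - h1 D - Divisor.degree D := by
  refine le_induction
    (p := fun E => (ell E : ℤ) - h1 E - Divisor.degree E = (ell D : ℤ) - h1 D - Divisor.degree D)
    rfl ?_ h
  intro E P _ ih
  rw [euler_step, map_add, degree_single]
  omega

theorem euler_char_eq (D : Divisor K F) :
    (ell D : ℤ) - h1 D = Divisor.degree D + 1 - genusFF K F := by
  have h1' := euler_invariant (le_sup_left : D ≤ D ⊔ 0)
  have h2' := euler_invariant (le_sup_right : (0 : Divisor K F) ≤ D ⊔ 0)
  rw [ell_zero_eq, h1_zero_eq_genusFF, map_zero] at h2'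
  omega

/-- `deg D - l(D) ≤ g - 1`, with equality exactly when `h¹(D) = 0`. -/
theorem degree_sub_ell_le (D : Divisor K F) :
    Divisor.degree D + 1 - genusFF K F ≤ (ell D : ℤ) := by
  have := euler_char_eq D
  omega

theorem h1_eq_of_sub_eq_divFn {f : F} (hf : f ≠ 0) {D E : Divisor K F}
    (h : D - E = divFn f) : h1 D = h1 E := by
  have := euler_char_eq D
  have := euler_char_eq E
  have := ell_eq_of_sub_eq_divFn hf h
  have h' := congrArg Divisor.degree h
  rw [map_sub, degree_divFn] at h'
  omega

theorem h1_antitone {D E : Divisor K F} (h : D ≤ E) : h1 E ≤ h1 D := by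
  have := euler_char_eq D
  have := euler_char_eq E
  have := degree_sub_ell_mono h
  omega

theorem exists_degree_bound : ∃ c : ℤ, ∀ D : Divisor K F, c ≤ Divisor.degree D → h1 D = 0 := by
  obtain ⟨D₀, h0⟩ := exists_isMax (K := K) (F := F)
  have hD₀ : h1 D₀ = 0 := by
    rw [h1_eq_finrank_quot, h1Den_eq_top_of_isMax fun E _ => h0 E]
    exact Module.finrank_zero_of_subsingleton
  refine ⟨Divisor.degree D₀ + genusFF K F, fun D hD => ?_⟩
  have hpos : 0 < ell (D - D₀) := by
    have := degree_sub_ell_le (D - D₀)
    rw [map_sub] at this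
    omega
  obtain ⟨E, hE, hp⟩ := ell_pos_iff.mp hpos
  obtain ⟨f, hf, he⟩ := mem_principal_iff_divFn.mp hp
  have : h1 (E + D₀) = h1 D := h1_eq_of_sub_eq_divFn hf (by rw [← he]; abel)
  have := h1_antitone (le_add_of_nonneg_left hE : D₀ ≤ E + D₀)
  omega

end FermatAgent.Curve.RR
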